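import Fermat.Agent.ES.Defs

/-!
# ES/B (H1): formal lemmas on `Vq`, `twist`, `contract`
-/

set_option autoImplicit false

open ModularCurve

namespace Fermat.Agent.ES

noncomputable section

variable {R : Type*} [CommRing R]

theorem contract_Vq (ℓ : ℕ) [NeZero ℓ] (x : LaurentSeries R) : contract ℓ (Vq R ℓ x) = x := by
  ext n
  rw [contract_coeff, qExpand_coeff_mul]

theorem twist_Vq (ℓ : ℕ) [NeZero ℓ] (z : Rˣ) (hz : z ^ ℓ = 1) (x : LaurentSeries R) :
    twist z (Vq R ℓ x) = Vq R ℓ x := by
  ext n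
  rw [twist_coeff]
  by_cases hn : (ℓ : ℤ) ∣ n
  · obtain ⟨k, rfl⟩ := hn
    rw [zpow_mul, zpow_natCast, hz, one_zpow, Units.val_one, one_mul]
  · rw [qExpand_coeff_of_not_dvd ℓ x hn, mul_zero]

theorem twist_injective (z : Rˣ) : Function.Injective (twist z : LaurentSeries R → _) := by
  intro x y h
  ext n
  have := congrArg (fun s => HahnSeries.coeff s n) h
  simp only [twist_coeff] at this
  exact (Units.mul_right_inj _).mp this

end

end Fermat.Agent.ES
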