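import Fermat.Agent.ES.Defs
import Fermat.Agent.S24.QDict
import Fermat.Agent.S24.Gen
import Fermat.Agent.S24.Hermite
import Fermat.Prelude.Def_ModularCurve_HeckeOperator
import Fermat.Prelude.Thm_ModularCurve_coeffMap_qExpand

/-!
# ES/B (H1): the Atkin–Lehner involution `w_ℓ` of the function field of `X₀(Nℓ)`, `ℓ ∤ N`

`w (j(q^d)) = j(q^{ℓ d})`, `w (j(q^{ℓ d})) = j(q^d)` for `d ∣ N`.
-/

set_option autoImplicit false

open AlgebraicCurve ModularCurve UpperHalfPlane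
open scoped MatrixGroups

namespace Fermat.Agent.ES

noncomputable section

namespace AtkinLehner

open Fermat.Agent.S24 Fermat.Agent.S24.Hermite

theorem jd_congr {a b : ℕ} [NeZero a] [NeZero b] (h : a = b) (τ : ℍ) : jd a τ = jd b τ := by
  subst h; rfl

theorem jSer_congr {a b : ℕ} [NeZero a] [NeZero b] (h : a = b) : jSer a = jSer b := by
  subst h; rfl

/-- the swap `d ↦ ℓ d` (`ℓ ∤ d`), `d ↦ d / ℓ` (`ℓ ∣ d`) on the divisors of `N ℓ`. -/
def swap (N ℓ : ℕ) (hℓ : ℓ.Prime) (d : Dv (N * ℓ)) : Dv (N * ℓ) :=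
  if h : ℓ ∣ d.1 then
    ⟨d.1 / ℓ, by
      obtain ⟨e, he⟩ := h
      have h2 := d.2
      rw [he] at h2 ⊢
      rw [Nat.mul_div_cancel_left _ hℓ.pos]
      exact (Nat.dvd_of_mul_dvd_mul_left hℓ.pos (by rwa [mul_comm N ℓ] at h2)).trans
        (dvd_mul_right N ℓ)⟩
  else
    ⟨ℓ * d.1, by
      have hc : Nat.Coprime d.1 ℓ := ((Nat.Prime.coprime_iff_not_dvd hℓ).mpr h).symm
      exact (mul_dvd_mul_left ℓ (hc.dvd_of_dvd_mul_right d.2)).trans
        (dvd_of_eq (mul_comm ℓ N))⟩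

theorem swap_of_dvd (N ℓ : ℕ) (hℓ : ℓ.Prime) (d : Dv (N * ℓ)) (h : ℓ ∣ d.1) :
    (swap N ℓ hℓ d).1 = d.1 / ℓ := by
  unfold swap; rw [dif_pos h]

theorem swap_of_not_dvd (N ℓ : ℕ) (hℓ : ℓ.Prime) (d : Dv (N * ℓ)) (h : ¬ ℓ ∣ d.1) :
    (swap N ℓ hℓ d).1 = ℓ * d.1 := by
  unfold swap; rw [dif_neg h]

theorem swap_swap (N ℓ : ℕ) (hℓ : ℓ.Prime) (hN : ¬ ℓ ∣ N) (d : Dv (N * ℓ)) :
    swap N ℓ hℓ (swap N ℓ hℓ d) = d := by
  apply Subtype.ext
  by_cases h : ℓ ∣ d.1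
  · have h1 := swap_of_dvd N ℓ hℓ d h
    obtain ⟨e, he⟩ := h
    have h2 : (swap N ℓ hℓ d).1 = e := by
      rw [h1, he, Nat.mul_div_cancel_left _ hℓ.pos]
    have h3 : ¬ ℓ ∣ (swap N ℓ hℓ d).1 := by
      rw [h2]
      intro hle
      apply hN
      have h4 : ℓ * e ∣ N * ℓ := he ▸ d.2
      rw [mul_comm N ℓ] at h4
      exact hle.trans (Nat.dvd_of_mul_dvd_mul_left hℓ.pos h4)
    rw [swap_of_not_dvd N ℓ hℓ _ h3, h2, he]
  · have h1 := swap_of_not_dvd N ℓ hℓ d h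
    have h3 : ℓ ∣ (swap N ℓ hℓ d).1 := by rw [h1]; exact dvd_mul_right _ _
    rw [swap_of_dvd N ℓ hℓ _ h3, h1, Nat.mul_div_cancel_left _ hℓ.pos]

theorem mulH_mulH (a b : ℕ) [NeZero a] [NeZero b] [NeZero (b * a)] (τ : ℍ) :
    mulH a (mulH b τ) = mulH (b * a) τ := by
  apply UpperHalfPlane.ext
  rw [coe_mulH, coe_mulH, coe_mulH]
  push_cast
  ring

end AtkinLehner

open AtkinLehner Fermat.Agent.S24 Fermat.Agent.S24.Hermite in
theorem exists_atkinLehner (N ℓ : ℕ) [NeZero N] [NeZero ℓ] (hℓ : ℓ.Prime) (hN : ¬ ℓ ∣ N) :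
    ∃ w : FF (N * ℓ) →ₐ[Qb] FF (N * ℓ),
      (∀ f : FF N, w (heckeAlphaBar Qb N ℓ f) = heckeBetaBar Qb N ℓ f) ∧
      (∀ f : FF N, w (heckeBetaBar Qb N ℓ f) = heckeAlphaBar Qb N ℓ f) := by
  classical
  have : NeZero (N * ℓ) := ⟨Nat.mul_ne_zero (NeZero.ne N) (NeZero.ne ℓ)⟩
  set s := swap N ℓ hℓ with hs
  -- Bezout
  have hcop : IsCoprime (ℓ : ℤ) (N : ℤ) := by
    rw [Nat.isCoprime_iff_coprime]
    exact (Nat.Prime.coprime_iff_not_dvd hℓ).mpr hN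
  obtain ⟨a, b, hab⟩ := hcop
  -- a * ℓ + b * N = 1 ; put w := a, y := -b
  obtain ⟨γ₀, hγ₀⟩ := exists_SL !![1, -b; (N : ℤ), ℓ * a] (by
    rw [Matrix.det_fin_two_of]; linarith)
  have g00 : γ₀ 0 0 = 1 := by simp [hγ₀]
  have g01 : γ₀ 0 1 = -b := by simp [hγ₀]
  have g10 : γ₀ 1 0 = N := by simp [hγ₀]
  have g11 : γ₀ 1 1 = ℓ * a := by simp [hγ₀]
  have hγ₀mem : γ₀ ∈ CongruenceSubgroup.Gamma0 N := by
    rw [CongruenceSubgroup.Gamma0_mem, g10]
    simp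
  let W : ℍ → ℍ := fun τ => γ₀ • mulH ℓ τ
  have key : ∀ (d : Dv (N * ℓ)) (τ : ℍ), jd (s d).1 τ = jd d.1 (W τ) := by
    intro d τ
    by_cases h : ℓ ∣ d.1
    · have h1 := swap_of_dvd N ℓ hℓ d h
      obtain ⟨e, he⟩ := h
      have h2 : (s d).1 = e := by
        rw [hs, h1, he, Nat.mul_div_cancel_left _ hℓ.pos]
      have heN : e ∣ N := by
        have h4 : ℓ * e ∣ N * ℓ := he ▸ d.2
        rw [mul_comm N ℓ] at h4
        exact Nat.dvd_of_mul_dvd_mul_left hℓ.pos h4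
      have : NeZero e := ⟨fun h0 => NeZero.ne N (Nat.eq_zero_of_zero_dvd (h0 ▸ heN))⟩
      have : NeZero (ℓ * e) := ⟨Nat.mul_ne_zero (NeZero.ne ℓ) (NeZero.ne e)⟩
      obtain ⟨c, hc⟩ := heN
      obtain ⟨γ₂, hγ₂⟩ := exists_SL !![(ℓ : ℤ), e * (-b); (c : ℤ), a] (by
        rw [Matrix.det_fin_two_of]
        have : (N : ℤ) = e * c := by exact_mod_cast hc
        rw [this] at hab
        linarith)
      have k00 : γ₂ 0 0 = ℓ := by simp [hγ₂]
      have k01 : γ₂ 0 1 = e * (-b) := by simp [hγ₂]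
      have k10 : γ₂ 1 0 = c := by simp [hγ₂]
      have k11 : γ₂ 1 1 = a := by simp [hγ₂]
      rw [jd_congr h2, jd_congr he]
      have hm : mulH (ℓ * e) (W τ) = γ₂ • mulH e τ := by
        apply UpperHalfPlane.ext
        have hden1 := SL_denom_ne_zero γ₀ (mulH ℓ τ)
        have hden2 := SL_denom_ne_zero γ₂ (mulH e τ)
        show ((mulH (ℓ * e) (γ₀ • mulH ℓ τ) : ℍ) : ℂ) = _
        rw [coe_mulH, coe_SL_smul, coe_SL_smul]
        rw [coe_mulH] at hden1 hden2 ⊢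
        rw [coe_mulH]
        rw [g00, g01, g10, g11] at *
        rw [k00, k01, k10, k11] at *
        have hNC : (N : ℂ) = e * c := by exact_mod_cast hc
        have hℓC : (ℓ : ℂ) ≠ 0 := by exact_mod_cast NeZero.ne ℓ
        push_cast at hden1 hden2 ⊢
        rw [hNC] at hden1 ⊢
        have e1 : (e : ℂ) * c * (ℓ * τ) + ℓ * a = ℓ * (c * (e * τ) + a) := by ring
        rw [e1]
        field_simp
      unfold jd
      rw [hm, jfun_smul]
    · have h1 := swap_of_not_dvd N ℓ hℓ d h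
      have hdN : d.1 ∣ N := by
        have hc : Nat.Coprime d.1 ℓ := ((Nat.Prime.coprime_iff_not_dvd hℓ).mpr h).symm
        exact hc.dvd_of_dvd_mul_right d.2
      have : NeZero (ℓ * d.1) := ⟨Nat.mul_ne_zero (NeZero.ne ℓ) (NeZero.ne d.1)⟩
      rw [jd_congr (show (s d).1 = ℓ * d.1 from h1)]
      show _ = jd d.1 (γ₀ • mulH ℓ τ)
      rw [jd_smul_of_mem_Gamma0 N d.1 hdN γ₀ hγ₀mem]
      unfold jd
      rw [mulH_mulH]
  -- evaluation of `phiH`
  have hev : ∀ (p : MvPolynomial (Dv (N * ℓ)) Kb) (τ : ℍ),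
      phiH (N * ℓ) (MvPolynomial.rename s p) τ = phiH (N * ℓ) p (W τ) := by
    intro p τ
    have e1 : ∀ (q : MvPolynomial (Dv (N * ℓ)) Kb) (σ : ℍ),
        phiH (N * ℓ) q σ = MvPolynomial.aeval (fun d : Dv (N * ℓ) => jd d.1 σ) q := by
      intro q σ
      have := MvPolynomial.comp_aeval_apply (f := fun d : Dv (N * ℓ) => jd d.1)
        (Pi.evalAlgHom Kb (fun _ : ℍ => ℂ) σ) q
      exact this
    have e2 : (fun d : Dv (N * ℓ) => jd d.1 τ) ∘ s = fun d : Dv (N * ℓ) => jd d.1 (W τ) := by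
      funext d
      exact key d τ
    rw [e1, e1, MvPolynomial.aeval_rename, e2]
  have hfwd : ∀ p : MvPolynomial (Dv (N * ℓ)) Kb, phiF (N * ℓ) p = 0 →
      phiF (N * ℓ) (MvPolynomial.rename s p) = 0 := by
    intro p hp
    rw [phiF_eq_zero_iff] at hp ⊢
    funext τ
    rw [hev, hp]
    rfl
  have hss : ∀ p : MvPolynomial (Dv (N * ℓ)) Kb,
      MvPolynomial.rename s (MvPolynomial.rename s p) = p := by
    intro p
    rw [MvPolynomial.rename_rename]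
    have : s ∘ s = id := by
      funext d
      exact swap_swap N ℓ hℓ hN d
    rw [this, MvPolynomial.rename_id_apply]
  obtain ⟨w, hw⟩ := exists_lift_FN (N * ℓ)
    ((phiF (N * ℓ)).comp (MvPolynomial.rename s)) (by
      intro p
      constructor
      · intro h
        have h' : phiF (N * ℓ) (MvPolynomial.rename s p) = 0 := h
        have := hfwd _ h'
        rwa [hss] at this
      · intro h
        exact hfwd p h)
  have hwj : ∀ d : Dv (N * ℓ), w (jF (N * ℓ) d.1 d.2) = jF (N * ℓ) (s d).1 (s d).2 := by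
    intro d
    have := hw (MvPolynomial.X d)
    simpa [phiF] using this
  -- the images of the generators under α and β
  have hα : ∀ d : Dv N, heckeAlphaBar Qb N ℓ (jF N d.1 d.2)
      = jF (N * ℓ) d.1 (d.2.trans (dvd_mul_right N ℓ)) := by
    intro d
    apply Subtype.ext
    rfl
  have hβ : ∀ d : Dv N, ∀ (_ : NeZero (ℓ * d.1)), heckeBetaBar Qb N ℓ (jF N d.1 d.2)
      = jF (N * ℓ) (ℓ * d.1) ((mul_dvd_mul_left ℓ d.2).trans (dvd_of_eq (mul_comm ℓ N))) := by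
    intro d _
    apply Subtype.ext
    show qExpand Qb ℓ (coeffEmb Kb (qExpand ℚ d.1 jq)) = coeffEmb Kb (qExpand ℚ (ℓ * d.1) jq)
    rw [← qExpand_qExpand]
    exact (coeffMap_qExpand _ _ _).symm
  have hnd : ∀ d : Dv N, ¬ ℓ ∣ d.1 := fun d h => hN (h.trans d.2)
  have jF_congr : ∀ (x y : ℕ) (_ : NeZero x) (_ : NeZero y) (hx : x ∣ N * ℓ) (hy : y ∣ N * ℓ),
      x = y → jF (N * ℓ) x hx = jF (N * ℓ) y hy := by
    intro x y _ _ hx hy hxy
    subst hxy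
    rfl
  refine ⟨w, ?_, ?_⟩
  · intro f
    have : (w.comp (heckeAlphaBar Qb N ℓ)) = heckeBetaBar Qb N ℓ := by
      apply algHom_ext_FN N
      intro d
      have : NeZero (ℓ * d.1) := ⟨Nat.mul_ne_zero (NeZero.ne ℓ) (NeZero.ne d.1)⟩
      rw [AlgHom.comp_apply, hα, hβ d this]
      have h3 := hwj ⟨d.1, d.2.trans (dvd_mul_right N ℓ)⟩
      rw [h3]
      apply jF_congr
      exact swap_of_not_dvd N ℓ hℓ ⟨d.1, d.2.trans (dvd_mul_right N ℓ)⟩ (hnd d)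
    exact AlgHom.congr_fun this f
  · intro f
    have : (w.comp (heckeBetaBar Qb N ℓ)) = heckeAlphaBar Qb N ℓ := by
      apply algHom_ext_FN N
      intro d
      have : NeZero (ℓ * d.1) := ⟨Nat.mul_ne_zero (NeZero.ne ℓ) (NeZero.ne d.1)⟩
      rw [AlgHom.comp_apply, hα, hβ d this]
      have h3 := hwj ⟨ℓ * d.1, (mul_dvd_mul_left ℓ d.2).trans (dvd_of_eq (mul_comm ℓ N))⟩
      rw [h3]
      apply jF_congr
      rw [hs, swap_of_dvd N ℓ hℓ _ (dvd_mul_right _ _)]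
      exact Nat.mul_div_cancel_left _ hℓ.pos
    exact AlgHom.congr_fun this f

end

end Fermat.Agent.ES
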