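import Fermat.Agent.ES.Defs
import Fermat.Agent.S24.Packages
import Fermat.Agent.Gamma0Comb.Index
import Fermat.Agent.S24.FF.FiniteOver
import Fermat.Prelude.Def_ModularCurve_HeckeOperator

/-!
# ES/B (H1): `[F_{Nℓ} : F_N] = ℓ + 1` for a prime `ℓ ∤ N`

PROOF SKETCH (task ES/B-H1-Degree).  `FF N = S24.FN N`, `Qb = S24.Kb` definitionally.
* `S24.finrank_FN : finrank Kb⟮jN N⟯ (FN N) = Nat.card (XN N)`, `S24.finiteDimensional_FN`,
  `Nat.card (XN N) = (Gamma0 N).index = dedekindPsi N` (`Gamma0Comb.index_Gamma0`),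
  `dedekindPsi_mul_of_not_dvd`.
* General lemma: `α : F →ₐ[K] E` fields, `x : F`:
  `finrank K⟮x⟯ F * finrank_α F E = finrank K⟮α x⟯ E` (`Module.finrank_mul_finrank` for the tower
  `K⟮x⟯ → F → E` + `Algebra.finrank_eq_of_equiv_equiv` with `K⟮x⟯ ≃ (K⟮x⟯).map α = K⟮α x⟯`,
  `IntermediateField.adjoin_map`).  Here `α (jN N) = jN (N*ℓ)`.
* finiteness of `E` over `F` from finiteness over `K⟮α x⟯` (`Module.Finite.of_restrictScalars_finite`).
* `β` integral: `E` is finite over `K⟮β (jN N)⟯` by `S24.FF.finiteDimensional_of_transcendental`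
  (`β (jN N) = jF (N*ℓ) ℓ` is transcendental: `β` is injective and `jN N` is transcendental).
-/

set_option autoImplicit false
set_option linter.style.haveILetI false

open AlgebraicCurve ModularCurve
open scoped IntermediateField

namespace Fermat.Agent.ES

noncomputable section

namespace H1Degree

section General

variable {K F E : Type*} [Field K] [Field F] [Field E] [Algebra K F] [Algebra K E]

/-- The isomorphism `K⟮x⟯ ≃ K⟮α x⟯` induced by `α`. -/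
def adjEquiv (α : F →ₐ[K] E) (x : F) : K⟮x⟯ ≃ₐ[K] K⟮α x⟯ :=
  ((K⟮x⟯).equivMap α).trans (IntermediateField.equivOfEq (by
    rw [IntermediateField.adjoin_map, Set.image_singleton]))

theorem coe_adjEquiv (α : F →ₐ[K] E) (x : F) (c : K⟮x⟯) :
    ((adjEquiv α x c : K⟮α x⟯) : E) = α (c : F) := rfl

theorem finite_and_finrank (α : F →ₐ[K] E) (x : F) [FiniteDimensional K⟮α x⟯ E] :
    FiniteAlong K α ∧
      Module.finrank K⟮x⟯ F * finrankAlong K α = Module.finrank K⟮α x⟯ E := by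
  letI := algebraAlong α
  letI : Algebra K⟮x⟯ E := ((algebraMap F E).comp (algebraMap K⟮x⟯ F)).toAlgebra
  haveI : IsScalarTower K⟮x⟯ F E := IsScalarTower.of_algebraMap_eq fun _ => rfl
  have hc : (algebraMap K⟮α x⟯ E).comp (adjEquiv α x : K⟮x⟯ ≃+* K⟮α x⟯).toRingHom
      = (RingEquiv.refl E).toRingHom.comp (algebraMap K⟮x⟯ E) := by
    ext c
    rfl
  have hc' : (algebraMap K⟮x⟯ E).comp ((adjEquiv α x : K⟮x⟯ ≃+* K⟮α x⟯).symm : K⟮α x⟯ →+* K⟮x⟯)
      = ((RingEquiv.refl E : E ≃+* E) : E →+* E).comp (algebraMap K⟮α x⟯ E) := by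
    ext c
    obtain ⟨c, rfl⟩ := (adjEquiv α x : K⟮x⟯ ≃+* K⟮α x⟯).surjective c
    simp only [RingHom.comp_apply, RingHom.coe_coe, RingEquiv.symm_apply_apply]
    rfl
  haveI h1 : Module.Finite K⟮x⟯ E :=
    Module.Finite.of_equiv_equiv (adjEquiv α x : K⟮x⟯ ≃+* K⟮α x⟯).symm (RingEquiv.refl E) hc'
  haveI h2 : Module.Finite F E := Module.Finite.of_restrictScalars_finite K⟮x⟯ F E
  refine ⟨h2, ?_⟩
  have h3 : Module.finrank K⟮x⟯ F * Module.finrank F E = Module.finrank K⟮x⟯ E :=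
    Module.finrank_mul_finrank K⟮x⟯ F E
  have h4 : Module.finrank K⟮x⟯ E = Module.finrank K⟮α x⟯ E :=
    Algebra.finrank_eq_of_equiv_equiv (adjEquiv α x : K⟮x⟯ ≃+* K⟮α x⟯) (RingEquiv.refl E) hc
  exact h3.trans h4

theorem isIntegral_of_finiteAlong (α : F →ₐ[K] E) (h : FiniteAlong K α) :
    α.toRingHom.IsIntegral := by
  letI := algebraAlong α
  haveI : Module.Finite F E := h
  exact fun y => Algebra.IsIntegral.isIntegral (R := F) y

end General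

end H1Degree

open H1Degree

theorem heckeAlpha_jN (N ℓ : ℕ) [NeZero N] [NeZero ℓ] :
    heckeAlphaBar Qb N ℓ (S24.jN N) = S24.jN (N * ℓ) := rfl

theorem finiteAlong_heckeAlpha (N ℓ : ℕ) [NeZero N] [NeZero ℓ] :
    FiniteAlong Qb (heckeAlphaBar Qb N ℓ) := by
  haveI : NeZero (N * ℓ) := ⟨Nat.mul_ne_zero (NeZero.ne N) (NeZero.ne ℓ)⟩
  haveI : FiniteDimensional Qb⟮heckeAlphaBar Qb N ℓ (S24.jN N)⟯ (FF (N * ℓ)) :=
    S24.finiteDimensional_FN (N * ℓ)
  exact (finite_and_finrank (heckeAlphaBar Qb N ℓ) (S24.jN N)).1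

theorem finrankAlong_heckeAlpha (N ℓ : ℕ) [NeZero N] [NeZero ℓ] (hℓ : ℓ.Prime) (hN : ¬ ℓ ∣ N) :
    finrankAlong Qb (heckeAlphaBar Qb N ℓ) = ℓ + 1 := by
  haveI : NeZero (N * ℓ) := ⟨Nat.mul_ne_zero (NeZero.ne N) (NeZero.ne ℓ)⟩
  haveI : FiniteDimensional Qb⟮heckeAlphaBar Qb N ℓ (S24.jN N)⟯ (FF (N * ℓ)) :=
    S24.finiteDimensional_FN (N * ℓ)
  have h := (finite_and_finrank (heckeAlphaBar Qb N ℓ) (S24.jN N)).2
  have h1 : Module.finrank Qb⟮S24.jN N⟯ (FF N) = dedekindPsi N :=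
    (S24.finrank_FN N).trans (Gamma0Comb.index_Gamma0 N)
  have h2 : Module.finrank Qb⟮heckeAlphaBar Qb N ℓ (S24.jN N)⟯ (FF (N * ℓ))
      = dedekindPsi (N * ℓ) :=
    (S24.finrank_FN (N * ℓ)).trans (Gamma0Comb.index_Gamma0 (N * ℓ))
  have h3 : dedekindPsi (N * ℓ) = (ℓ + 1) * dedekindPsi N := by
    rw [mul_comm N ℓ, Gamma0Comb.dedekindPsi_mul_of_not_dvd (NeZero.ne N) hℓ hN]
  rw [h1, h2, h3, mul_comm] at h
  have hpos : dedekindPsi N ≠ 0 := by
    rw [← h1]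
    haveI := S24.finiteDimensional_FN N
    exact Module.finrank_pos.ne'
  exact Nat.eq_of_mul_eq_mul_right (Nat.pos_of_ne_zero hpos) h

theorem heckeAlphaBarIntegral (N ℓ : ℕ) [NeZero N] [NeZero ℓ] :
    HeckeAlphaBarIntegral Qb N ℓ :=
  isIntegral_of_finiteAlong _ (finiteAlong_heckeAlpha N ℓ)

theorem finiteAlong_heckeBeta (N ℓ : ℕ) [NeZero N] [NeZero ℓ] :
    FiniteAlong Qb (heckeBetaBar Qb N ℓ) := by
  haveI : NeZero (N * ℓ) := ⟨Nat.mul_ne_zero (NeZero.ne N) (NeZero.ne ℓ)⟩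
  haveI := S24.finiteDimensional_FN (N * ℓ)
  have htr : Transcendental Qb (heckeBetaBar Qb N ℓ (S24.jN N)) := fun h =>
    S24.transcendental_jN N
      ((isAlgebraic_algHom_iff (heckeBetaBar Qb N ℓ) (heckeBetaBar Qb N ℓ).injective).mp h)
  haveI : FiniteDimensional Qb⟮heckeBetaBar Qb N ℓ (S24.jN N)⟯ (FF (N * ℓ)) :=
    S24.FF.finiteDimensional_of_transcendental Qb (S24.jN (N * ℓ)) htr
  exact (finite_and_finrank (heckeBetaBar Qb N ℓ) (S24.jN N)).1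

theorem heckeBetaBarIntegral (N ℓ : ℕ) [NeZero N] [NeZero ℓ] :
    HeckeBetaBarIntegral Qb N ℓ :=
  isIntegral_of_finiteAlong _ (finiteAlong_heckeBeta N ℓ)

end

end Fermat.Agent.ES
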